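import Fermat.Agent.BorelDensity.Rational
import Mathlib.Dynamics.Ergodic.Conservative
import Mathlib.LinearAlgebra.Dimension.Free
import Mathlib.MeasureTheory.Group.Action
import Mathlib.MeasureTheory.Measure.Typeclasses.Probability
import Mathlib.MeasureTheory.Constructions.BorelSpace.Basic
import Mathlib.Topology.Algebra.Group.Quotient

/-!
# Subspaces invariant under a subgroup of finite covolume

Let `G ⧸ Γ` carry an invariant probability measure and let `W` be invariant under `Γ`.  The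
projection onto `g W` descends to the quotient; along a one-parameter subgroup acting polynomially
it tends to a limit, and by Poincaré's recurrence it is then constant on almost every orbit, so by
continuity the one-parameter subgroup keeps `W` as well.
-/

set_option autoImplicit false
set_option linter.unusedSectionVars false
set_option linter.style.haveILetI false

noncomputable section

open MeasureTheory Matrix Filter Topology Set Function
open scoped Pointwise

namespace FA.BorelDensity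

variable {G : Type*} [Group G] [TopologicalSpace G] [IsTopologicalGroup G]
  [SecondCountableTopology G] [MeasurableSpace G] [BorelSpace G] {Γ : Subgroup G}

theorem measurableConstSMul_quotient : MeasurableConstSMul G (G ⧸ Γ) :=
  ⟨fun c => measurable_from_quotient.2 (Measurable.comp
    (g := (QuotientGroup.mk : G → G ⧸ Γ)) (fun _ h => h) (measurable_const_mul c))⟩

/-- An invariant probability measure charges every nonempty open set. -/
theorem measure_pos_of_open {ν : Measure (G ⧸ Γ)} [IsProbabilityMeasure ν]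
    [SMulInvariantMeasure G (G ⧸ Γ) ν] {N : Set (G ⧸ Γ)}
    (hNo : IsOpen ((QuotientGroup.mk : G → G ⧸ Γ) ⁻¹' N)) (hN : N.Nonempty) : ν N ≠ 0 := by
  haveI := measurableConstSMul_quotient (Γ := Γ)
  intro h0
  obtain ⟨x, hx⟩ := hN
  induction x using QuotientGroup.induction_on with
  | _ a =>
  set s : G → Set G := fun c => (c⁻¹ * ·) ⁻¹' ((QuotientGroup.mk : G → G ⧸ Γ) ⁻¹' N) with hs
  have hcov : ⋃ c, s c = univ := eq_univ_of_forall fun g => mem_iUnion.2 ⟨g * a⁻¹, by
    show (QuotientGroup.mk ((g * a⁻¹)⁻¹ * g) : G ⧸ Γ) ∈ N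
    rwa [_root_.mul_inv_rev, inv_inv, inv_mul_cancel_right]⟩
  obtain ⟨T, hT, hTU⟩ := TopologicalSpace.isOpen_iUnion_countable s fun c =>
    hNo.preimage (continuous_const.mul continuous_id)
  rw [hcov] at hTU
  have h1 : (univ : Set (G ⧸ Γ)) ⊆ ⋃ c ∈ T, (c⁻¹ • ·) ⁻¹' N := by
    rintro y -
    induction y using QuotientGroup.induction_on with
    | _ g =>
    obtain ⟨c, hc, hg⟩ := mem_iUnion₂.1 (hTU.symm ▸ mem_univ g : g ∈ ⋃ i ∈ T, s i)
    exact mem_iUnion₂.2 ⟨c, hc, hg⟩
  have h2 : ν univ = 0 := measure_mono_null h1 ((measure_biUnion_null_iff hT).2 fun c _ => by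
    rw [(measurePreserving_smul c⁻¹ ν).measure_preimage
      (MeasurableSet.nullMeasurableSet (measurableSet_quotient.2 hNo.measurableSet))]
    exact h0)
  rw [measure_univ] at h2
  exact one_ne_zero h2

variable {m : Type*} [Fintype m] [DecidableEq m] {ρ : G →* Matrix m m ℝ}

theorem rep_mulVec_injective (ρ : G →* Matrix m m ℝ) (g : G) : Injective (ρ g).mulVec :=
  fun x y h => by
    have h1 := congrArg (fun z => ρ g⁻¹ *ᵥ z) h
    simpa only [mulVec_mulVec, ← map_mul, inv_mul_cancel, map_one, one_mulVec] using h1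

/-- The time-one map of a polynomial one-parameter subgroup keeps every `Γ`-invariant subspace. -/
theorem mem_of_invariant_one (ν : Measure (G ⧸ Γ)) [IsProbabilityMeasure ν]
    [SMulInvariantMeasure G (G ⧸ Γ) ν] (hρ : Continuous ρ) {W : Submodule ℝ (m → ℝ)}
    (hW : ∀ γ ∈ Γ, ∀ w ∈ W, ρ γ *ᵥ w ∈ W) {v : ℝ → G} (hadd : ∀ s t, v (s + t) = v s * v t)
    (hpoly : PolyFamily fun t => ρ (v t)) {w : m → ℝ} (hw : w ∈ W) : ρ (v 1) *ᵥ w ∈ W := by
  classical
  haveI := measurableConstSMul_quotient (Γ := Γ)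
  set b := Module.finBasis ℝ W
  set B : Matrix m (Fin (Module.finrank ℝ W)) ℝ := Matrix.of fun a c => (b c : m → ℝ) a with hB
  have hBx : ∀ x, B *ᵥ x = ((∑ c, x c • b c : W) : m → ℝ) := fun x => by
    ext a
    simp [hB, mulVec, dotProduct, mul_comm]
  have hBinj : Injective B.mulVec := fun x y h => by
    rw [hBx, hBx] at h
    have h1 := congrArg b.equivFun (Subtype.ext h)
    simpa only [← Module.Basis.equivFun_symm_apply, LinearEquiv.apply_symm_apply] using h1
  have hinj : ∀ g, Injective (ρ g * B).mulVec := fun g x y h => by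
    simp only [← mulVec_mulVec] at h
    exact hBinj (rep_mulVec_injective ρ g h)
  -- the projection is constant on right cosets
  have hwd : ∀ g, ∀ γ ∈ Γ, colProj (ρ (g * γ) * B) = colProj (ρ g * B) := fun g γ hγ => by
    set C : Matrix (Fin (Module.finrank ℝ W)) (Fin (Module.finrank ℝ W)) ℝ :=
      Matrix.of fun c' c => b.repr ⟨ρ γ *ᵥ (b c : m → ℝ), hW γ hγ _ (b c).2⟩ c' with hC
    have hBC : ρ γ * B = B * C := by
      ext a c
      have h := congrArg (fun z : W => (z : m → ℝ) a)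
        (b.sum_repr ⟨ρ γ *ᵥ (b c : m → ℝ), hW γ hγ _ (b c).2⟩)
      simp only [Submodule.coe_sum, Submodule.coe_smul, Finset.sum_apply, Pi.smul_apply,
        smul_eq_mul] at h
      rw [Matrix.mul_apply, Matrix.mul_apply]
      refine Eq.trans ?_ (h.symm.trans (Finset.sum_congr rfl fun i _ => mul_comm _ _))
      rfl
    have hdet : C.det ≠ 0 := fun h0 => by
      obtain ⟨x, hx, hx0⟩ := exists_mulVec_eq_zero_iff.2 h0
      refine hx (hinj γ ?_)
      show (ρ γ * B) *ᵥ x = (ρ γ * B) *ᵥ 0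
      rw [mulVec_zero, hBC, ← mulVec_mulVec, hx0, mulVec_zero]
    rw [map_mul, Matrix.mul_assoc, hBC, ← Matrix.mul_assoc, colProj_mul_right _ hdet]
  set P : G → Matrix m m ℝ := fun g => colProj (ρ g * B) with hP
  have hPc : Continuous P := continuous_colProj (hρ.matrix_mul continuous_const) hinj
  set Q : G ⧸ Γ → Matrix m m ℝ := fun x => Quotient.liftOn' x P fun g h hgh => by
    rw [QuotientGroup.leftRel_apply] at hgh
    show colProj (ρ g * B) = colProj (ρ h * B)
    rw [← hwd g _ hgh, mul_inv_cancel_left] with hQ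
  have hQmk : ∀ g, Q (QuotientGroup.mk g) = P g := fun g => rfl
  have hQm : ∀ a c, Measurable fun x => Q x a c := fun a c =>
    measurable_from_quotient.2 (hPc.matrix_elem a c).measurable
  -- recurrence
  have hv0 : v 0 = 1 := by
    have h := hadd 0 0
    rwa [add_zero, left_eq_mul] at h
  set T : G ⧸ Γ → G ⧸ Γ := fun x => v 1 • x with hT
  have hiter : ∀ (n : ℕ) g, T^[n] (QuotientGroup.mk g) = QuotientGroup.mk (v n * g) := fun n g => by
    induction n with
    | zero => simp [hv0]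
    | succ n ih =>
      rw [Function.iterate_succ_apply', ih]
      show (QuotientGroup.mk (v 1 * (v n * g)) : G ⧸ Γ) = _
      rw [← mul_assoc, ← hadd, Nat.cast_succ, add_comm]
  have hcons : Conservative T ν := (measurePreserving_smul (v 1) ν).conservative
  have hrec : ∀ a c, ∀ᵐ x ∂ν, ∀ o ∈ TopologicalSpace.countableBasis ℝ, ∀ k : ℕ,
      Q (T^[k] x) a c ∈ o → ∃ᶠ n in atTop, Q (T^[n] x) a c ∈ o := fun a c =>
    (ae_ball_iff (TopologicalSpace.countable_countableBasis ℝ)).2 fun o ho =>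
      hcons.ae_forall_image_mem_imp_frequently_image_mem
        (hQm a c (TopologicalSpace.isOpen_of_mem_countableBasis ho).measurableSet).nullMeasurableSet
  have hconst : ∀ a c, ∀ᵐ x ∂ν, Q (T x) a c = Q x a c := fun a c => by
    filter_upwards [hrec a c] with x hx
    induction x using QuotientGroup.induction_on with
    | _ g =>
    obtain ⟨L, hL⟩ := exists_tendsto_colProj (F := fun t => ρ (v t) * (ρ g * B))
      (hpoly.mul (polyFamily_const _)) (fun t => by
        rw [← Matrix.mul_assoc, ← map_mul]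
        exact hinj _) a c
    have hseq : ∀ n : ℕ, Q (T^[n] (QuotientGroup.mk g)) a c =
        colProj (ρ (v n) * (ρ g * B)) a c := fun n => by
      rw [hiter, hQmk, ← Matrix.mul_assoc, ← map_mul]
    have hall : ∀ k, Q (T^[k] (QuotientGroup.mk g)) a c = L := fun k => by
      by_contra hne
      obtain ⟨U, V, hU, hV, hkU, hLV, hUV⟩ := t2_separation hne
      obtain ⟨o, ho, hko, hoU⟩ :=
        (TopologicalSpace.isBasis_countableBasis ℝ).exists_subset_of_mem_open hkU hU
      have hev : ∀ᶠ n : ℕ in atTop, Q (T^[n] (QuotientGroup.mk g)) a c ∈ V := by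
        simp only [hseq]
        exact (hL.comp tendsto_natCast_atTop_atTop).eventually_mem (hV.mem_nhds hLV)
      obtain ⟨n, hn1, hn2⟩ := ((hx o ho k hko).and_eventually hev).exists
      exact Set.disjoint_left.1 hUV (hoU hn1) hn2
    exact (hall 1).trans (hall 0).symm
  have hae : ∀ᵐ x ∂ν, Q (T x) = Q x := by
    filter_upwards [ae_all_iff.2 fun a => ae_all_iff.2 (hconst a)] with x hx
    exact Matrix.ext hx
  have hall : ∀ g, P (v 1 * g) = P g := by
    by_contra hcon
    push Not at hcon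
    obtain ⟨g₀, hg₀⟩ := hcon
    refine measure_pos_of_open (ν := ν) (N := {x | ¬ Q (T x) = Q x}) ?_
      ⟨QuotientGroup.mk g₀, hg₀⟩ hae
    exact isOpen_ne_fun (hPc.comp (continuous_const.mul continuous_id)) hPc
  have h1 : colProj (ρ (v 1) * B) = colProj B := by
    simpa [hP] using hall 1
  obtain ⟨x, hx⟩ : ∃ x, B *ᵥ x = w := ⟨b.equivFun ⟨w, hw⟩, by rw [hBx, b.sum_equivFun]⟩
  have h2 : ρ (v 1) *ᵥ w = B *ᵥ ((Bᵀ * B)⁻¹ *ᵥ (Bᵀ *ᵥ (ρ (v 1) *ᵥ w))) := by
    conv_lhs => rw [← hx, mulVec_mulVec, ← colProj_mul_self (hinj (v 1)), h1, ← mulVec_mulVec,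
      ← mulVec_mulVec, hx]
    rw [colProj, ← mulVec_mulVec, ← mulVec_mulVec]
  rw [h2, hBx]
  exact Submodule.coe_mem _

/-- Every element of a polynomial one-parameter subgroup keeps every `Γ`-invariant subspace. -/
theorem mem_of_invariant (ν : Measure (G ⧸ Γ)) [IsProbabilityMeasure ν]
    [SMulInvariantMeasure G (G ⧸ Γ) ν] (hρ : Continuous ρ) {W : Submodule ℝ (m → ℝ)}
    (hW : ∀ γ ∈ Γ, ∀ w ∈ W, ρ γ *ᵥ w ∈ W) {v : ℝ → G} (hadd : ∀ s t, v (s + t) = v s * v t)
    (hpoly : PolyFamily fun t => ρ (v t)) (t : ℝ) {w : m → ℝ} (hw : w ∈ W) :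
    ρ (v t) *ᵥ w ∈ W := by
  have h := mem_of_invariant_one ν hρ hW (v := fun s => v (s * t))
    (fun s s' => by rw [add_mul, hadd]) (fun a c => ?_) hw
  · simpa only [one_mul] using h
  · obtain ⟨p, hp⟩ := hpoly a c
    exact ⟨p.comp (Polynomial.X * Polynomial.C t), fun s => by simp [hp, mul_comm s t]⟩

/-- **The density theorem for subspaces.** -/
theorem invariant_of_generated (ν : Measure (G ⧸ Γ)) [IsProbabilityMeasure ν]
    [SMulInvariantMeasure G (G ⧸ Γ) ν] (hρ : Continuous ρ) {ι : Type*} {u : ι → ℝ → G}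
    (hadd : ∀ i s t, u i (s + t) = u i s * u i t) (hpoly : ∀ i, PolyFamily fun t => ρ (u i t))
    (hgen : Subgroup.closure (⋃ i, range (u i)) = ⊤) {W : Submodule ℝ (m → ℝ)}
    (hW : ∀ γ ∈ Γ, ∀ w ∈ W, ρ γ *ᵥ w ∈ W) (g : G) : ∀ w ∈ W, ρ g *ᵥ w ∈ W := by
  let S : Subgroup G :=
    { carrier := {g | (∀ w ∈ W, ρ g *ᵥ w ∈ W) ∧ ∀ w ∈ W, ρ g⁻¹ *ᵥ w ∈ W}
      one_mem' := by
        show (∀ w ∈ W, ρ 1 *ᵥ w ∈ W) ∧ ∀ w ∈ W, ρ (1 : G)⁻¹ *ᵥ w ∈ W
        simp
      mul_mem' := fun {a b} ha hb => by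
        refine ⟨fun w hw => ?_, fun w hw => ?_⟩
        · rw [map_mul, ← mulVec_mulVec]
          exact ha.1 _ (hb.1 w hw)
        · rw [_root_.mul_inv_rev, map_mul, ← mulVec_mulVec]
          exact hb.2 _ (ha.2 w hw)
      inv_mem' := fun {a} ha => ⟨ha.2, by rw [inv_inv]; exact ha.1⟩ }
  have hle : (⊤ : Subgroup G) ≤ S := by
    rw [← hgen, Subgroup.closure_le]
    rintro _ ⟨_, ⟨i, rfl⟩, t, rfl⟩
    have hinv : (u i t)⁻¹ = u i (-t) := inv_eq_of_mul_eq_one_right (by
      rw [← hadd, add_neg_cancel]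
      have h := hadd i 0 0
      rwa [add_zero, left_eq_mul] at h)
    exact ⟨fun w hw => mem_of_invariant ν hρ hW (hadd i) (hpoly i) t hw, fun w hw => by
      rw [hinv]
      exact mem_of_invariant ν hρ hW (hadd i) (hpoly i) (-t) hw⟩
  exact (hle (Subgroup.mem_top g)).1

end FA.BorelDensity

end
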