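import Mathlib.Analysis.Polynomial.Basic
import Mathlib.LinearAlgebra.Matrix.NonsingularInverse
import Mathlib.LinearAlgebra.Matrix.Polynomial
import Mathlib.LinearAlgebra.Matrix.Rank
import Mathlib.Topology.Instances.Matrix

/-!
# The orthogonal projection onto a moving column space

For an injective real matrix `B` the matrix `B (Bᵀ B)⁻¹ Bᵀ` is the orthogonal projection onto the
column space.  Its entries are bounded by `1`, and when `B` depends polynomially on a parameter they
are rational functions of it, so they have limits at infinity.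
-/

set_option autoImplicit false
set_option linter.unusedSectionVars false
set_option linter.style.haveILetI false

noncomputable section

open Matrix Filter Topology Polynomial

namespace FA.BorelDensity

/-- A bounded rational function without poles has a limit at infinity. -/
theorem exists_tendsto_ratio (p q : ℝ[X]) {C : ℝ} (hq : q ≠ 0)
    (hb : ∀ t, |p.eval t / q.eval t| ≤ C) :
    ∃ L, Tendsto (fun t => p.eval t / q.eval t) atTop (𝓝 L) := by
  rcases lt_trichotomy p.degree q.degree with h | h | h
  · exact ⟨0, p.div_tendsto_atTop_zero_of_degree_lt q h⟩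
  · exact ⟨_, p.div_tendsto_atTop_leadingCoeff_div_of_degree_eq q h⟩
  · exfalso
    have h1 := p.abs_div_tendsto_atTop_atTop_of_degree_gt q h hq
    obtain ⟨t, ht⟩ := (h1.eventually_gt_atTop C).exists
    exact not_lt.2 (hb t) ht

variable {m k : Type*} [Fintype m] [DecidableEq m] [Fintype k] [DecidableEq k]

/-- The projection onto the column space. -/
def colProj (B : Matrix m k ℝ) : Matrix m m ℝ := B * (Bᵀ * B)⁻¹ * Bᵀ

theorem det_gram_ne_zero {B : Matrix m k ℝ} (hB : Function.Injective B.mulVec) :
    (Bᵀ * B).det ≠ 0 := fun h => by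
  obtain ⟨v, hv, hv0⟩ := exists_mulVec_eq_zero_iff.2 h
  have h1 : (B *ᵥ v) ⬝ᵥ (B *ᵥ v) = 0 := by
    rw [dotProduct_mulVec, ← mulVec_transpose, mulVec_mulVec, hv0, zero_dotProduct]
  exact hv (hB (by rw [mulVec_zero]; exact dotProduct_self_eq_zero.1 h1))

theorem colProj_mul_self {B : Matrix m k ℝ} (hB : Function.Injective B.mulVec) :
    colProj B * B = B := by
  rw [colProj, Matrix.mul_assoc, Matrix.mul_assoc,
    nonsing_inv_mul _ (isUnit_iff_ne_zero.2 (det_gram_ne_zero hB)), Matrix.mul_one]

theorem colProj_idem {B : Matrix m k ℝ} (hB : Function.Injective B.mulVec) :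
    colProj B * colProj B = colProj B := by
  conv_lhs => arg 2; rw [colProj]
  rw [← Matrix.mul_assoc, ← Matrix.mul_assoc, colProj_mul_self hB]
  rfl

theorem colProj_transpose (B : Matrix m k ℝ) : (colProj B)ᵀ = colProj B := by
  rw [colProj, transpose_mul, transpose_mul, transpose_transpose, transpose_nonsing_inv,
    transpose_mul, transpose_transpose, Matrix.mul_assoc]

/-- The entries of the projection are bounded by `1`. -/
theorem abs_colProj_le {B : Matrix m k ℝ} (hB : Function.Injective B.mulVec) (a b : m) :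
    |colProj B a b| ≤ 1 := by
  have hsum : ∀ i, colProj B i i = ∑ j, colProj B i j ^ 2 := fun i => by
    have h := congrFun (congrFun (colProj_idem hB) i) i
    rw [Matrix.mul_apply] at h
    rw [← h]
    refine Finset.sum_congr rfl fun j _ => ?_
    have hs : colProj B j i = colProj B i j := congrFun (congrFun (colProj_transpose B) i) j
    rw [hs, sq]
  have hdiag : colProj B a a ≤ 1 := by
    have h1 : colProj B a a ^ 2 ≤ colProj B a a := by
      conv_rhs => rw [hsum a]
      exact Finset.single_le_sum (fun j _ => sq_nonneg (colProj B a j)) (Finset.mem_univ a)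
    nlinarith
  have h2 : colProj B a b ^ 2 ≤ 1 := by
    refine le_trans ?_ hdiag
    rw [hsum a]
    exact Finset.single_le_sum (fun j _ => sq_nonneg (colProj B a j)) (Finset.mem_univ b)
  exact (sq_le_one_iff_abs_le_one _).1 h2

/-- The projection only depends on the column space. -/
theorem colProj_mul_right (B : Matrix m k ℝ) {C : Matrix k k ℝ} (hC : C.det ≠ 0) :
    colProj (B * C) = colProj B := by
  have h1 : IsUnit C.det := isUnit_iff_ne_zero.2 hC
  have h2 : IsUnit Cᵀ.det := by rwa [det_transpose]
  rw [colProj, colProj, transpose_mul,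
    show Cᵀ * Bᵀ * (B * C) = Cᵀ * ((Bᵀ * B) * C) by simp only [Matrix.mul_assoc],
    Matrix.mul_inv_rev, Matrix.mul_inv_rev]
  simp only [Matrix.mul_assoc]
  rw [← Matrix.mul_assoc C C⁻¹, mul_nonsing_inv _ h1, Matrix.one_mul,
    ← Matrix.mul_assoc Cᵀ⁻¹ Cᵀ, nonsing_inv_mul _ h2, Matrix.one_mul]

theorem continuous_colProj {X : Type*} [TopologicalSpace X] {F : X → Matrix m k ℝ}
    (hF : Continuous F) (hinj : ∀ x, Function.Injective (F x).mulVec) :
    Continuous fun x => colProj (F x) := by
  have hG : Continuous fun x => (F x)ᵀ * F x := hF.matrix_transpose.matrix_mul hF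
  simp only [colProj, inv_def, Ring.inverse_eq_inv']
  exact (hF.matrix_mul ((hG.matrix_det.inv₀ fun x => det_gram_ne_zero (hinj x)).smul
    hG.matrix_adjugate)).matrix_mul hF.matrix_transpose

/-- Polynomial dependence of the entries. -/
def PolyFamily {ι κ : Type*} (F : ℝ → Matrix ι κ ℝ) : Prop :=
  ∀ a b, ∃ p : ℝ[X], ∀ t, F t a b = p.eval t

omit [Fintype m] [DecidableEq m] [DecidableEq k] in
theorem PolyFamily.mul {ι : Type*} {F : ℝ → Matrix m k ℝ} {H : ℝ → Matrix k ι ℝ}
    (hF : PolyFamily F) (hH : PolyFamily H) : PolyFamily fun t => F t * H t := fun a b => by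
  choose p hp using hF
  choose q hq using hH
  exact ⟨∑ c, p a c * q c b, fun t => by simp [Matrix.mul_apply, eval_finsetSum, hp, hq]⟩

theorem polyFamily_const {ι κ : Type*} (M : Matrix ι κ ℝ) : PolyFamily fun _ => M := fun a b =>
  ⟨C (M a b), fun _ => eval_C.symm⟩

/-- Along a polynomial family each entry of the projection has a limit at infinity. -/
theorem exists_tendsto_colProj {F : ℝ → Matrix m k ℝ} (hF : PolyFamily F)
    (hinj : ∀ t, Function.Injective (F t).mulVec) (a b : m) :
    ∃ L, Tendsto (fun t => colProj (F t) a b) atTop (𝓝 L) := by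
  choose p hp using hF
  set P : Matrix m k ℝ[X] := Matrix.of p with hP
  have hmap : ∀ t, P.map (evalRingHom t) = F t := fun t => by
    ext i j
    simp [hP, hp]
  set q : ℝ[X] := (Pᵀ * P).det with hq
  set r : ℝ[X] := (P * adjugate (Pᵀ * P) * Pᵀ) a b with hr
  have hgram : ∀ t, (Pᵀ * P).map (evalRingHom t) = (F t)ᵀ * F t := fun t => by
    rw [Matrix.map_mul, transpose_map, hmap]
  have hqt : ∀ t, q.eval t = ((F t)ᵀ * F t).det := fun t => by
    rw [← hgram, hq]
    exact RingHom.map_det (evalRingHom t) (Pᵀ * P)
  have hval : ∀ t, colProj (F t) a b = r.eval t / q.eval t := fun t => by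
    have hadj : (adjugate (Pᵀ * P)).map (evalRingHom t) = adjugate ((F t)ᵀ * F t) := by
      rw [← hgram]
      exact RingHom.map_adjugate (evalRingHom t) (Pᵀ * P)
    have hr' : r.eval t = (F t * adjugate ((F t)ᵀ * F t) * (F t)ᵀ) a b := by
      rw [← hadj, ← hmap, ← transpose_map, ← Matrix.map_mul, ← Matrix.map_mul]
      rfl
    rw [hr', hqt, colProj, inv_def, Ring.inverse_eq_inv', Matrix.mul_smul, Matrix.smul_mul,
      Matrix.smul_apply, smul_eq_mul, div_eq_inv_mul]
  simp only [hval]
  refine exists_tendsto_ratio r q (fun h => ?_) (C := 1) fun t => by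
    rw [← hval]
    exact abs_colProj_le (hinj t) a b
  exact det_gram_ne_zero (hinj 0) (by rw [← hqt, h, eval_zero])

end FA.BorelDensity

end
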