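import Fermat.Agent.BorelDensity.Invariant
import Mathlib.LinearAlgebra.Matrix.Kronecker
import Mathlib.Data.Matrix.Block

/-!
# The span of a subgroup of finite covolume

Left multiplication on matrices keeps the span of the image of `Γ`, hence keeps it for the whole
group, so the span contains the image of the group.  With a constant block added this shows that
vectors fixed by `Γ` are fixed by the group.
-/

set_option autoImplicit false
set_option linter.unusedSectionVars false
set_option linter.style.haveILetI false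

noncomputable section

open MeasureTheory Matrix Set Function
open scoped Kronecker

namespace FA.BorelDensity

/-- A subgroup with an invariant probability measure on the quotient. -/
def HasFiniteCovolume {G : Type*} [Group G] [MeasurableSpace G] (Γ : Subgroup G) : Prop :=
  ∃ ν : Measure (G ⧸ Γ), IsProbabilityMeasure ν ∧ SMulInvariantMeasure G (G ⧸ Γ) ν

/-- One-parameter subgroups which generate and act polynomially. -/
structure IsPolyGenerated {G : Type*} [Group G] {ι m : Type*} [Fintype m] [DecidableEq m]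
    (u : ι → ℝ → G) (ρ : G →* Matrix m m ℝ) : Prop where
  add : ∀ i s t, u i (s + t) = u i s * u i t
  poly : ∀ i, PolyFamily fun t => ρ (u i t)
  generate : Subgroup.closure (⋃ i, range (u i)) = ⊤

variable {G : Type*} [Group G] [TopologicalSpace G] [IsTopologicalGroup G]
  [SecondCountableTopology G] [MeasurableSpace G] [BorelSpace G] {Γ : Subgroup G}
  {m : Type*} [Fintype m] [DecidableEq m] {ρ : G →* Matrix m m ℝ} {ι : Type*} {u : ι → ℝ → G}

theorem invariant_subspace (hΓ : HasFiniteCovolume Γ) (hρ : Continuous ρ)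
    (hu : IsPolyGenerated u ρ) {W : Submodule ℝ (m → ℝ)}
    (hW : ∀ γ ∈ Γ, ∀ w ∈ W, ρ γ *ᵥ w ∈ W) (g : G) {w : m → ℝ} (hw : w ∈ W) : ρ g *ᵥ w ∈ W := by
  obtain ⟨ν, hν, hinv⟩ := hΓ
  exact invariant_of_generated ν hρ hu.add hu.poly hu.generate hW g w hw

/-- Matrices as vectors. -/
def vecEntries : Matrix m m ℝ ≃ₗ[ℝ] (m × m → ℝ) where
  toFun X p := X p.1 p.2
  invFun x := Matrix.of fun a b => x (a, b)
  map_add' _ _ := rfl
  map_smul' _ _ := rfl
  left_inv _ := rfl
  right_inv _ := rfl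

theorem kronecker_one_mulVec (A X : Matrix m m ℝ) :
    (A ⊗ₖ (1 : Matrix m m ℝ)) *ᵥ vecEntries X = vecEntries (A * X) := by
  funext p
  simp [mulVec, dotProduct, vecEntries, Fintype.sum_prod_type, Matrix.mul_apply, Matrix.one_apply]

/-- Left multiplication on matrices as a representation. -/
def leftRep (ρ : G →* Matrix m m ℝ) : G →* Matrix (m × m) (m × m) ℝ where
  toFun g := ρ g ⊗ₖ (1 : Matrix m m ℝ)
  map_one' := by rw [map_one, one_kronecker_one]
  map_mul' g h := by rw [map_mul, ← mul_kronecker_mul, Matrix.one_mul]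

/-- **The span theorem.** -/
theorem mem_span_image (hΓ : HasFiniteCovolume Γ) (hρ : Continuous ρ) (hu : IsPolyGenerated u ρ)
    (g : G) : ρ g ∈ Submodule.span ℝ (ρ '' (Γ : Set G)) := by
  set S := Submodule.span ℝ (ρ '' (Γ : Set G))
  have hc : Continuous (leftRep ρ) := continuous_matrix fun a b =>
    (hρ.matrix_elem a.1 b.1).mul continuous_const
  have hu' : IsPolyGenerated u (leftRep ρ) := ⟨hu.add, fun i a b => by
    obtain ⟨p, hp⟩ := hu.poly i a.1 b.1
    exact ⟨p * Polynomial.C ((1 : Matrix m m ℝ) a.2 b.2), fun t => by simp [leftRep, hp]⟩,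
    hu.generate⟩
  have hW : ∀ γ ∈ Γ, ∀ w ∈ S.map (vecEntries (m := m)).toLinearMap,
      leftRep ρ γ *ᵥ w ∈ S.map (vecEntries (m := m)).toLinearMap := fun γ hγ => by
    rintro _ ⟨X, hX, rfl⟩
    refine ⟨ρ γ * X, ?_, (kronecker_one_mulVec (ρ γ) X).symm⟩
    have hle : S ≤ S.comap (LinearMap.mulLeft ℝ (ρ γ)) := Submodule.span_le.2 (by
      rintro _ ⟨δ, hδ, rfl⟩
      exact Submodule.subset_span ⟨γ * δ, Γ.mul_mem hγ hδ, map_mul ρ γ δ⟩)
    exact hle hX
  obtain ⟨Y, hY, hYe⟩ := invariant_subspace hΓ hc hu' hW g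
    (w := vecEntries (ρ 1)) ⟨ρ 1, Submodule.subset_span ⟨1, Γ.one_mem, rfl⟩, rfl⟩
  rw [show leftRep ρ g *ᵥ vecEntries (ρ 1) = vecEntries (ρ g) by
    rw [show leftRep ρ g = ρ g ⊗ₖ (1 : Matrix m m ℝ) from rfl, kronecker_one_mulVec,
      ← map_mul, mul_one]] at hYe
  exact vecEntries.injective hYe ▸ hY

/-- A linear map vanishing on the image of `Γ` vanishes on the image of the group. -/
theorem map_eq_zero_of_vanish (hΓ : HasFiniteCovolume Γ) (hρ : Continuous ρ)
    (hu : IsPolyGenerated u ρ) {E : Type*} [AddCommGroup E] [Module ℝ E]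
    (φ : Matrix m m ℝ →ₗ[ℝ] E) (h : ∀ γ ∈ Γ, φ (ρ γ) = 0) (g : G) : φ (ρ g) = 0 :=
  Submodule.span_le.2 (show ρ '' (Γ : Set G) ⊆ LinearMap.ker φ by
    rintro _ ⟨γ, hγ, rfl⟩
    exact h γ hγ) (mem_span_image hΓ hρ hu g)

/-- A constant block added. -/
def addTrivial (ρ : G →* Matrix m m ℝ) : G →* Matrix (m ⊕ Unit) (m ⊕ Unit) ℝ where
  toFun g := fromBlocks (ρ g) 0 0 1
  map_one' := by rw [map_one, fromBlocks_one]
  map_mul' g h := by simp [fromBlocks_multiply]

theorem continuous_addTrivial (hρ : Continuous ρ) : Continuous (addTrivial ρ) :=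
  hρ.matrix_fromBlocks continuous_const continuous_const continuous_const

theorem IsPolyGenerated.addTrivial (hu : IsPolyGenerated u ρ) :
    IsPolyGenerated u (FA.BorelDensity.addTrivial ρ) := by
  refine ⟨hu.add, fun i => ?_, hu.generate⟩
  rintro (a | a) (b | b)
  · exact hu.poly i a b
  · exact ⟨0, fun t => Polynomial.eval_zero.symm⟩
  · exact ⟨0, fun t => Polynomial.eval_zero.symm⟩
  · exact ⟨1, fun t => by simp [FA.BorelDensity.addTrivial]⟩

/-- **Fixed vectors.** -/
theorem fixed_vector (hΓ : HasFiniteCovolume Γ) (hρ : Continuous ρ) (hu : IsPolyGenerated u ρ)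
    {v : m → ℝ} (hv : ∀ γ ∈ Γ, ρ γ *ᵥ v = v) (g : G) : ρ g *ᵥ v = v := by
  let φ : Matrix (m ⊕ Unit) (m ⊕ Unit) ℝ →ₗ[ℝ] (m → ℝ) :=
    { toFun := fun X => X.toBlocks₁₁ *ᵥ v - X (Sum.inr ()) (Sum.inr ()) • v
      map_add' := fun X Y => by
        rw [show (X + Y).toBlocks₁₁ = X.toBlocks₁₁ + Y.toBlocks₁₁ from rfl, add_mulVec,
          Matrix.add_apply, add_smul]
        abel
      map_smul' := fun c X => by
        rw [show (c • X).toBlocks₁₁ = c • X.toBlocks₁₁ from rfl, smul_mulVec, Matrix.smul_apply,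
          smul_eq_mul, ← smul_smul, smul_sub, RingHom.id_apply] }
  have hval : ∀ x, φ (FA.BorelDensity.addTrivial ρ x) = ρ x *ᵥ v - v := fun x => by
    show (fromBlocks (ρ x) 0 0 1).toBlocks₁₁ *ᵥ v -
      (fromBlocks (ρ x) 0 0 1 : Matrix (m ⊕ Unit) (m ⊕ Unit) ℝ) (Sum.inr ()) (Sum.inr ()) • v = _
    rw [toBlocks_fromBlocks₁₁, fromBlocks_apply₂₂, Matrix.one_apply_eq, one_smul]
  have h := map_eq_zero_of_vanish hΓ (continuous_addTrivial hρ) hu.addTrivial φ
    (fun γ hγ => by rw [hval, hv γ hγ, sub_self]) g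
  rwa [hval, sub_eq_zero] at h

end FA.BorelDensity

end
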