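import Fermat.Agent.BorelDensity.Span
import Fermat.Agent.SLnMixing.Roots
import Fermat.Agent.SLnMixing.Space
import Mathlib.Algebra.MvPolynomial.Eval
import Mathlib.Data.Matrix.Basis

/-!
# Subgroups of finite covolume in the special linear group

Transvections generate `SL n ℝ` and act polynomially on the tensor powers of the standard
representation with a trivial line added.  Polynomials in the entries are linear combinations of
the entries of these powers, so those vanishing on a subgroup of finite covolume vanish identically.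
-/

set_option autoImplicit false
set_option linter.unusedSectionVars false
set_option linter.style.haveILetI false

noncomputable section

open MeasureTheory Matrix Set Function FA.SLnMixing FA.HoweMoore
open scoped MatrixGroups Pointwise

namespace FA.BorelDensity

variable {n : ℕ}

/-- The group. -/
abbrev SpecialLin (n : ℕ) : Type := Matrix.SpecialLinearGroup (Fin n) ℝ

/-- The one-parameter subgroup of transvections in one position. -/
def flow (p : {p : Fin n × Fin n // p.1 ≠ p.2}) (t : ℝ) : SpecialLin n :=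
  Matrix.SpecialLinearGroup.transvection p.2 t

theorem flow_add (p : {p : Fin n × Fin n // p.1 ≠ p.2}) (s t : ℝ) :
    flow p (s + t) = flow p s * flow p t :=
  Matrix.SpecialLinearGroup.transvection_add p.2 s t

theorem transvection_mem_closure {i j : Fin n} (hij : i ≠ j) (t : ℝ) :
    (Matrix.SpecialLinearGroup.transvection hij t : SpecialLin n) ∈
      Subgroup.closure (⋃ p, range (flow p)) :=
  Subgroup.subset_closure (mem_iUnion.2 ⟨⟨(i, j), hij⟩, t, rfl⟩)

theorem pair_ne {i j : Fin n} (hij : i ≠ j) {p q : Fin 2} (hpq : p ≠ q) :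
    ![i, j] p ≠ ![i, j] q := by
  fin_cases p <;> fin_cases q <;> first | exact absurd rfl hpq | exact hij | exact hij.symm

theorem embed_transvection {i j : Fin n} (hij : i ≠ j) {p q : Fin 2} (hpq : p ≠ q) (b : ℝ) :
    embed hij (Matrix.SpecialLinearGroup.transvection hpq b) =
      Matrix.SpecialLinearGroup.transvection (pair_ne hij hpq) b := by
  refine Subtype.ext (Matrix.ext fun k l => ?_)
  show (1 + pairCols i j * ((1 + Matrix.single p q b) - 1) * (pairCols i j)ᵀ :
    Matrix (Fin n) (Fin n) ℝ) k l = (1 + Matrix.single (![i, j] p) (![i, j] q) b) k l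
  rw [add_sub_cancel_left, Matrix.add_apply, Matrix.add_apply]
  congr 1
  rw [Matrix.mul_apply, Finset.sum_eq_single q
    (fun a _ ha => by rw [Matrix.mul_single_apply_of_ne _ _ _ _ _ ha, zero_mul])
    (fun h => absurd (Finset.mem_univ q) h), Matrix.mul_single_apply_same, Matrix.single_apply]
  simp only [pairCols, Matrix.transpose_apply, Matrix.of_apply, ite_mul, one_mul, zero_mul,
    mul_ite, mul_one, mul_zero]
  split_ifs <;> simp_all

theorem closure_flow : Subgroup.closure (⋃ p, range (flow (n := n) p)) = ⊤ := by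
  refine eq_top_iff.2 fun g _ => ?_
  rcases subsingleton_or_nontrivial (Fin n) with h | h
  · have hg : g = 1 := Subtype.ext (by
      ext i j
      obtain rfl : i = j := Subsingleton.elim _ _
      haveI : Unique (Fin n) := uniqueOfSubsingleton i
      have hdet := g.2
      rw [Matrix.det_unique] at hdet
      rw [Subsingleton.elim i default]
      simpa using hdet)
    rw [hg]
    exact one_mem _
  refine Matrix.SpecialLinearGroup.diagonal_transvection_induction'
    (fun g => g ∈ Subgroup.closure (⋃ p, range (flow p))) g (fun i j hij c hc => ?_)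
    (fun i j hij a => transvection_mem_closure hij a) fun A B hA hB => mul_mem hA hB
  rw [← embed_diag hij hc]
  exact Matrix.SL2.transvection_induction
    (fun A => embed hij A ∈ Subgroup.closure (⋃ p, range (flow p)))
    (fun p q hpq b => by
      rw [embed_transvection hij hpq b]
      exact transvection_mem_closure _ b)
    (fun A B hA hB => by rw [map_mul]; exact mul_mem hA hB) _

/-- The standard representation. -/
def stdRep (n : ℕ) : SpecialLin n →* Matrix (Fin n) (Fin n) ℝ :=
  Matrix.SpecialLinearGroup.coeMonoidHom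

theorem stdRep_apply (g : SpecialLin n) : stdRep n g = g.1 := rfl

theorem continuous_stdRep : Continuous (stdRep n) := continuous_subtype_val

theorem isPolyGenerated_stdRep : IsPolyGenerated (flow (n := n)) (stdRep n) := by
  refine ⟨flow_add, fun p a b => ?_, closure_flow⟩
  refine ⟨Polynomial.C ((1 : Matrix (Fin n) (Fin n) ℝ) a b) +
    Polynomial.X * Polynomial.C ((Matrix.single p.1.1 p.1.2 (1 : ℝ)) a b), fun t => ?_⟩
  show (1 + Matrix.single p.1.1 p.1.2 t : Matrix (Fin n) (Fin n) ℝ) a b = _
  simp [Matrix.single_apply]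
  split_ifs <;> simp

section Tensor

variable {G : Type*} [Group G] [TopologicalSpace G] {J ι : Type*} [Fintype J] [DecidableEq J]
  {u : ι → ℝ → G} {ρ : G →* Matrix J J ℝ}

/-- Tensor powers. -/
def tensorRep (ρ : G →* Matrix J J ℝ) (d : ℕ) : G →* Matrix (Fin d → J) (Fin d → J) ℝ where
  toFun g := Matrix.of fun a b => ∏ k, ρ g (a k) (b k)
  map_one' := by
    ext a b
    rw [Matrix.of_apply, map_one, Matrix.one_apply]
    split_ifs with h
    · subst h
      exact Finset.prod_eq_one fun k _ => Matrix.one_apply_eq _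
    · obtain ⟨k, hk⟩ := Function.ne_iff.1 h
      exact Finset.prod_eq_zero (Finset.mem_univ k) (Matrix.one_apply_ne hk)
  map_mul' g h := by
    ext a b
    simp only [Matrix.of_apply, Matrix.mul_apply, map_mul, Fintype.prod_sum,
      Finset.prod_mul_distrib]

theorem continuous_tensorRep (hρ : Continuous ρ) (d : ℕ) : Continuous (tensorRep ρ d) :=
  continuous_matrix fun a b =>
    (continuous_finsetProd Finset.univ fun k _ => hρ.matrix_elem (a k) (b k) :
      Continuous fun x => ∏ k, ρ x (a k) (b k))

theorem IsPolyGenerated.tensorRep (hu : IsPolyGenerated u ρ) (d : ℕ) :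
    IsPolyGenerated u (FA.BorelDensity.tensorRep ρ d) := by
  refine ⟨hu.add, fun i a b => ?_, hu.generate⟩
  choose p hp using hu.poly i
  exact ⟨∏ k, p (a k) (b k), fun t => by
    simp [FA.BorelDensity.tensorRep, Polynomial.eval_prod, hp]⟩

/-- Functions which are combinations of entries of a tensor power. -/
def entryFns (ρ : G →* Matrix J J ℝ) (d : ℕ) : Submodule ℝ (G → ℝ) :=
  Submodule.span ℝ (range fun p : (Fin d → J) × (Fin d → J) =>
    fun g => FA.BorelDensity.tensorRep ρ d g p.1 p.2)

theorem entryFns_mul (ρ : G →* Matrix J J ℝ) (d e : ℕ) :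
    entryFns ρ d * entryFns ρ e ≤ entryFns ρ (d + e) := by
  rw [entryFns, entryFns, Submodule.span_mul_span]
  refine Submodule.span_mono ?_
  rintro _ ⟨_, ⟨p, rfl⟩, _, ⟨q, rfl⟩, rfl⟩
  refine ⟨(Fin.append p.1 q.1, Fin.append p.2 q.2), funext fun g => ?_⟩
  simp [FA.BorelDensity.tensorRep, Fin.prod_univ_add]

theorem entryFns_mono {ρ : G →* Matrix J J ℝ} (c : J) (hc : ∀ g, ρ g c c = 1) {d e : ℕ}
    (hde : d ≤ e) : entryFns ρ d ≤ entryFns ρ e := by
  obtain ⟨r, rfl⟩ := Nat.exists_eq_add_of_le hde
  have h1 : (fun _ => (1 : ℝ)) ∈ entryFns ρ r := Submodule.subset_span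
    ⟨(fun _ => c, fun _ => c), funext fun g => by simp [FA.BorelDensity.tensorRep, hc]⟩
  intro f hf
  have h := entryFns_mul ρ d r (Submodule.mul_mem_mul hf h1)
  rwa [show f * (fun _ => (1 : ℝ)) = f from funext fun g => mul_one _] at h

end Tensor

/-- The standard representation with a trivial line. -/
abbrev affineRep (n : ℕ) : SpecialLin n →* Matrix (Fin n ⊕ Unit) (Fin n ⊕ Unit) ℝ :=
  addTrivial (stdRep n)

theorem affineRep_inr (g : SpecialLin n) : affineRep n g (Sum.inr ()) (Sum.inr ()) = 1 := by
  simp [affineRep, addTrivial]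

theorem eval_mem_entryFns (f : MvPolynomial (Fin n × Fin n) ℝ) :
    ∃ d, (fun g : SpecialLin n => MvPolynomial.eval (fun p => g.1 p.1 p.2) f) ∈
      entryFns (affineRep n) d := by
  induction f using MvPolynomial.induction_on with
  | C a =>
    refine ⟨0, ?_⟩
    have h : (fun _ : SpecialLin n => (1 : ℝ)) ∈ entryFns (affineRep n) 0 := Submodule.subset_span
      ⟨(Fin.elim0, Fin.elim0), funext fun g => by simp [tensorRep]⟩
    convert Submodule.smul_mem _ a h using 1
    ext g
    simp
  | add p q hp hq =>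
    obtain ⟨d, hd⟩ := hp
    obtain ⟨e, he⟩ := hq
    refine ⟨max d e, ?_⟩
    have h := Submodule.add_mem _ (entryFns_mono _ affineRep_inr (le_max_left d e) hd)
      (entryFns_mono _ affineRep_inr (le_max_right d e) he)
    convert h using 1
    ext g
    simp
  | mul_X p i hp =>
    obtain ⟨d, hd⟩ := hp
    refine ⟨d + 1, ?_⟩
    have h1 : (fun g : SpecialLin n => g.1 i.1 i.2) ∈ entryFns (affineRep n) 1 :=
      Submodule.subset_span ⟨(fun _ => Sum.inl i.1, fun _ => Sum.inl i.2), funext fun g => by
        simp [tensorRep, affineRep, addTrivial, stdRep_apply]⟩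
    have h := entryFns_mul (affineRep n) d 1 (Submodule.mul_mem_mul hd h1)
    convert h using 1
    ext g
    simp

variable [MeasurableSpace (SpecialLin n)] [BorelSpace (SpecialLin n)] {Γ : Subgroup (SpecialLin n)}

/-- **Zariski density.** -/
theorem eval_eq_zero_of_vanish (hΓ : HasFiniteCovolume Γ) (f : MvPolynomial (Fin n × Fin n) ℝ)
    (h : ∀ γ ∈ Γ, MvPolynomial.eval (fun p => γ.1 p.1 p.2) f = 0) (g : SpecialLin n) :
    MvPolynomial.eval (fun p => g.1 p.1 p.2) f = 0 := by
  obtain ⟨d, hd⟩ := eval_mem_entryFns f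
  obtain ⟨c, hc⟩ := Submodule.mem_span_range_iff_exists_fun ℝ |>.1 hd
  let φ : Matrix (Fin d → Fin n ⊕ Unit) (Fin d → Fin n ⊕ Unit) ℝ →ₗ[ℝ] ℝ :=
    ∑ p : (Fin d → Fin n ⊕ Unit) × (Fin d → Fin n ⊕ Unit),
      c p • Matrix.entryLinearMap ℝ ℝ p.1 p.2
  have hφ : ∀ x, φ (tensorRep (affineRep n) d x) =
      MvPolynomial.eval (fun p => x.1 p.1 p.2) f := fun x => by
    have h1 := congrFun hc x
    simp only [Finset.sum_apply, Pi.smul_apply] at h1
    simp only [φ, LinearMap.sum_apply, LinearMap.smul_apply, Matrix.entryLinearMap_apply]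
    exact h1
  rw [← hφ]
  exact map_eq_zero_of_vanish hΓ
    (continuous_tensorRep (continuous_addTrivial continuous_stdRep) d)
    (isPolyGenerated_stdRep.addTrivial.tensorRep d) φ (fun γ hγ => by rw [hφ, h γ hγ]) g

/-- **Irreducibility.** -/
theorem eq_bot_or_eq_top (hΓ : HasFiniteCovolume Γ) {W : Submodule ℝ (Fin n → ℝ)}
    (hW : ∀ γ ∈ Γ, ∀ w ∈ W, γ.1 *ᵥ w ∈ W) : W = ⊥ ∨ W = ⊤ := by
  by_cases hbot : W = ⊥
  · exact Or.inl hbot
  right
  obtain ⟨w, hw, hw0⟩ := (Submodule.ne_bot_iff W).1 hbot
  obtain ⟨j, hj⟩ := Function.ne_iff.1 hw0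
  have hmove : ∀ {i k : Fin n}, i ≠ k → ∀ {x : Fin n → ℝ}, x ∈ W → x k ≠ 0 →
      (Pi.single i 1 : Fin n → ℝ) ∈ W := fun {i k} hik {x} hx hxk => by
    have h1 := invariant_subspace hΓ continuous_stdRep isPolyGenerated_stdRep hW
      (Matrix.SpecialLinearGroup.transvection hik 1) hx
    have h2 : stdRep n (Matrix.SpecialLinearGroup.transvection hik 1) *ᵥ x =
        x + x k • (Pi.single i 1 : Fin n → ℝ) := by
      rw [stdRep_apply, Matrix.SpecialLinearGroup.transvection_coe, add_mulVec, one_mulVec]
      funext a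
      rw [Pi.add_apply, Pi.add_apply, Pi.smul_apply, single_mulVec_eq, Pi.smul_apply]
      simp [Pi.single_apply, mul_comm]
    rw [h2] at h1
    simpa [smul_smul, inv_mul_cancel₀ hxk] using
      W.smul_mem (x k)⁻¹ ((W.add_mem_iff_right hx).1 h1)
  have hbasis : ∀ i, (Pi.single i 1 : Fin n → ℝ) ∈ W := fun i => by
    by_cases hij : i = j
    · subst hij
      by_cases hex : ∃ k, k ≠ i
      · obtain ⟨k, hk⟩ := hex
        exact hmove (Ne.symm hk) (hmove hk hw hj) (by simp)
      · push Not at hex
        have h1 := W.smul_mem (w i)⁻¹ hw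
        rwa [show (w i)⁻¹ • w = (Pi.single i 1 : Fin n → ℝ) from funext fun a => by
          rw [hex a, Pi.smul_apply, Pi.single_eq_same, smul_eq_mul, inv_mul_cancel₀ hj]] at h1
    · exact hmove hij hw hj
  refine Submodule.eq_top_iff'.2 fun x => ?_
  rw [show x = ∑ i, x i • (Pi.single i 1 : Fin n → ℝ) by
    funext a
    simp [Finset.sum_apply, Pi.single_apply]]
  exact Submodule.sum_mem _ fun i _ => W.smul_mem _ (hbasis i)

/-- **Commutants.** -/
theorem mem_range_scalar_of_commute (hΓ : HasFiniteCovolume Γ) {A : Matrix (Fin n) (Fin n) ℝ}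
    (hA : ∀ γ ∈ Γ, Commute A γ.1) : A ∈ Set.range (Matrix.scalar (Fin n)) := by
  refine Matrix.mem_range_scalar_of_commute_single fun i j hij => ?_
  have h := map_eq_zero_of_vanish hΓ continuous_stdRep isPolyGenerated_stdRep
    (LinearMap.mulLeft ℝ A - LinearMap.mulRight ℝ A)
    (fun γ hγ => by
      simp only [LinearMap.sub_apply, LinearMap.mulLeft_apply, LinearMap.mulRight_apply,
        stdRep_apply]
      rw [(hA γ hγ).eq, sub_self])
    (Matrix.SpecialLinearGroup.transvection hij 1)
  simp only [LinearMap.sub_apply, LinearMap.mulLeft_apply, LinearMap.mulRight_apply, stdRep_apply,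
    Matrix.SpecialLinearGroup.transvection_coe, mul_add, add_mul, mul_one, one_mul,
    add_sub_add_left_eq_sub, sub_eq_zero] at h
  exact h.symm

/-- A subgroup of finite covolume has a matrix which is not upper triangular. -/
theorem exists_lower_entry_ne_zero (hΓ : HasFiniteCovolume Γ) {i j : Fin n} (hij : j < i) :
    ∃ γ ∈ Γ, γ.1 i j ≠ 0 := by
  by_contra h
  push Not at h
  have h1 := eval_eq_zero_of_vanish hΓ (MvPolynomial.X (i, j))
    (fun γ hγ => by simpa using h γ hγ) (Matrix.SpecialLinearGroup.transvection hij.ne' 1)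
  simp [Matrix.SpecialLinearGroup.transvection_coe, hij.ne'] at h1

/-- The integral subgroup has finite covolume. -/
theorem hasFiniteCovolume_int [NeZero n] :
    HasFiniteCovolume (Matrix.SpecialLinearGroup.map (n := Fin n) (Int.castRingHom ℝ)).range :=
  ⟨FA.SLnMixing.latMeasure n, inferInstance, inferInstance⟩

end FA.BorelDensity

end
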